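/-
S34 / U.SSc.Assembly, layer (1) (helper230): the S-level length identity of the count 3.2(3).

`S` a DVR.  `B`, `C` finite free `S`-algebras embedded in finite free `S`-algebras `NB`, `NC`
("normalisations") of the same ranks.  If `disc C ~ (disc B)^d`, `disc NC ~ (disc NB)^d` and
`disc B ≠ 0`, then `length (NC / C) = d * length (NB / B)`.
-/
import Mathlib
import Fermat.Agent.S34.Lib.DiscColength
import Fermat.Agent.S34.Lib.DiscProd

set_option autoImplicit false
set_option linter.unusedSectionVars false

namespace Fermat.Agent.S34.Assembly.Length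

open Module IsDiscreteValuationRing
open Fermat.Agent.S34.Lib

variable {S : Type*} [CommRing S] [IsDomain S] [IsDiscreteValuationRing S]

section General

variable {B C NB NC : Type*} [CommRing B] [CommRing C] [CommRing NB] [CommRing NC]
  [Algebra S B] [Algebra S C] [Algebra S NB] [Algebra S NC]
variable {ι ι' κ κ' : Type*} [Fintype ι] [DecidableEq ι] [Fintype ι'] [DecidableEq ι']
  [Fintype κ] [DecidableEq κ] [Fintype κ'] [DecidableEq κ']

/-- `v(disc B) = v(disc NB) + 2 length (NB / B)` for an injective algebra map `B → NB` between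
finite free algebras of the same rank, with bases indexed by arbitrary finite types. -/
theorem addVal_discr_eq (f : B →ₐ[S] NB) (hf : Function.Injective f)
    (bB : Basis ι S B) (bNB : Basis κ S NB) (hrk : Fintype.card ι = Fintype.card κ) :
    addVal S (Algebra.discr S bB) =
      addVal S (Algebra.discr S bNB) + 2 * Module.length S (NB ⧸ Subalgebra.toSubmodule f.range) := by
  have e : κ ≃ ι := (Fintype.equivOfCardEq hrk).symm
  have h := DiscColength.addVal_discr_eq_of_injective f hf (bNB.reindex e) bB
  have h2 : addVal S (Algebra.discr S (bNB.reindex e)) = addVal S (Algebra.discr S bNB) :=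
    (addVal_eq_iff_associated (R := S) _ _).mpr (DiscProd.associated_discr (bNB.reindex e) bNB)
  rw [h, h2]

/-- **The length identity** (3.2(3)). -/
theorem length_eq_mul (fB : B →ₐ[S] NB) (hfB : Function.Injective fB)
    (fC : C →ₐ[S] NC) (hfC : Function.Injective fC)
    (bB : Basis ι S B) (bNB : Basis κ S NB) (hrkB : Fintype.card ι = Fintype.card κ)
    (bC : Basis ι' S C) (bNC : Basis κ' S NC) (hrkC : Fintype.card ι' = Fintype.card κ')
    (d : ℕ) (hdisc : Associated (Algebra.discr S bC) (Algebra.discr S bB ^ d))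
    (hN : Associated (Algebra.discr S bNC) (Algebra.discr S bNB ^ d))
    (h0 : Algebra.discr S bB ≠ 0) :
    Module.length S (NC ⧸ Subalgebra.toSubmodule fC.range) =
      d * Module.length S (NB ⧸ Subalgebra.toSubmodule fB.range) :=
  DiscProd.colength_eq_mul _ _ _ _ _ _ d (addVal_discr_eq fB hfB bB bNB hrkB)
    (addVal_discr_eq fC hfC bC bNC hrkC) hdisc hN h0

end General

section Branches

variable {N : Type*} [CommRing N] [Algebra S N]
variable {κ : Type*} [Fintype κ] [DecidableEq κ]
variable {I₁ I₂ : Type*} [Fintype I₁] [DecidableEq I₁] [Fintype I₂] [DecidableEq I₂]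

/-- The basis of `(I₁ → N) × (I₂ → N)` induced by a basis of `N`. -/
noncomputable def branchBasis (bN : Basis κ S N) (I₁ I₂ : Type*) [Fintype I₁] [Fintype I₂] :
    Basis ((Σ _ : I₁, κ) ⊕ (Σ _ : I₂, κ)) S ((I₁ → N) × (I₂ → N)) :=
  (Pi.basis fun _ : I₁ => bN).prod (Pi.basis fun _ : I₂ => bN)

theorem discr_branchBasis (bN : Basis κ S N) :
    Algebra.discr S (branchBasis bN I₁ I₂) =
      Algebra.discr S bN ^ (Fintype.card I₁ + Fintype.card I₂) := by
  rw [branchBasis, DiscProd.discr_prod, DiscProd.discr_pi, DiscProd.discr_pi, Finset.prod_const,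
    Finset.prod_const, Finset.card_univ, Finset.card_univ, pow_add]

theorem discr_prod_self (bN : Basis κ S N) :
    Algebra.discr S (bN.prod bN) = Algebra.discr S bN ^ 2 := by
  rw [DiscProd.discr_prod, sq]

/-- **The length identity in the two-branch situation**: `Bbar ⊆ N × N`,
`Cbar ⊆ (I₁ → N) × (I₂ → N)` with `card I₁ = card I₂ = d`. -/
theorem length_eq_mul_branches {B C : Type*} [CommRing B] [CommRing C] [Algebra S B] [Algebra S C]
    {ι ι' : Type*} [Fintype ι] [DecidableEq ι] [Fintype ι'] [DecidableEq ι']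
    (fB : B →ₐ[S] N × N) (hfB : Function.Injective fB)
    (fC : C →ₐ[S] (I₁ → N) × (I₂ → N)) (hfC : Function.Injective fC)
    (bN : Basis κ S N) (bB : Basis ι S B) (bC : Basis ι' S C)
    (d : ℕ) (hI₁ : Fintype.card I₁ = d) (hI₂ : Fintype.card I₂ = d)
    (hrkB : Fintype.card ι = 2 * Fintype.card κ)
    (hrkC : Fintype.card ι' = 2 * d * Fintype.card κ)
    (hdisc : Associated (Algebra.discr S bC) (Algebra.discr S bB ^ d))
    (h0 : Algebra.discr S bB ≠ 0) :
    Module.length S (((I₁ → N) × (I₂ → N)) ⧸ Subalgebra.toSubmodule fC.range) =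
      d * Module.length S ((N × N) ⧸ Subalgebra.toSubmodule fB.range) := by
  refine length_eq_mul fB hfB fC hfC bB (bN.prod bN) ?_ bC (branchBasis bN I₁ I₂) ?_ d hdisc ?_ h0
  · rw [hrkB, Fintype.card_sum]; ring
  · rw [hrkC, Fintype.card_sum, Fintype.card_sigma, Fintype.card_sigma]
    simp only [Finset.sum_const, Finset.card_univ, smul_eq_mul, hI₁, hI₂]
    ring
  · rw [discr_branchBasis, discr_prod_self, hI₁, hI₂, ← pow_mul, two_mul]

end Branches

end Fermat.Agent.S34.Assembly.Length
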